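import Fermat.Agent.CyclicCount.Rough
import Fermat.Agent.HooleyDelta.Mean

/-!
# The number of `n ≤ N` prime to `φ n`

Erdős (1948): they number `~ exp (-γ) N / log log log N`. Nearly all of them have no prime factor
`≤ (log log N) ^ (1 - ε)`, as each such `p` divides some `q - 1`, `q ∣ n`, for nearly all `n`; and
nearly all `n` without prime factors `≤ (log log N) ^ (1 + ε)` are prime to `φ n`.
-/

set_option autoImplicit false

noncomputable section

namespace FA.CyclicCount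

open Finset Filter
open FA.ErdosKac (primesUpTo mem_primesUpTo recipSum loglog tendsto_loglog)
open FA.CarmichaelOrder (classRecip tendsto_loglogLog)
open FA.ShiftedPrimeOmega (share recipLogSum)
open scoped Topology

theorem eventually_level_single : ∃ C : ℝ, 0 < C ∧ ∀ᶠ m : ℕ in atTop, ∀ p : ℕ, p.Prime →
    p ^ 4 ≤ m →
    |(((primesUpTo m).filter fun q => p ∣ q - 1).card : ℝ) -
      share p * (primesUpTo m).card| ≤ C * ((m : ℝ) / Real.log m ^ 6) := by
  obtain ⟨C, hC, h⟩ := FA.OmegaPhi.exists_level_pred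
  refine ⟨2 * C, by positivity, h.mono fun m ⟨hlev, h0, _⟩ p hp hpm => ?_⟩
  have h1 := le_trans (single_le_sum (fun T _ => abs_nonneg _)
    (show {p} ∈ (primesUpTo p).powersetCard 1 from mem_powersetCard.2
      ⟨singleton_subset_iff.2 (mem_primesUpTo.2 ⟨hp, le_rfl⟩), card_singleton p⟩))
    (hlev p 1 (by rw [pow_one]; exact FA.ShiftedPrimeOmega.le_sqrt_sqrt hpm))
  simp only [mem_singleton, forall_eq, prod_singleton] at h1
  obtain ⟨hs0, hs⟩ := FA.ShiftedPrimeOmega.share_bounds hp.two_le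
  have hs1 : share p ≤ 1 := by
    rw [share]
    exact inv_le_one_of_one_le₀ (by linarith [show (2 : ℝ) ≤ p from by exact_mod_cast hp.two_le])
  have h2 : |share p * recipLogSum m - share p * (primesUpTo m).card| ≤
      C * ((m : ℝ) / Real.log m ^ 6) := by
    rw [← mul_sub, abs_mul, abs_of_nonneg hs0, abs_sub_comm]
    exact (mul_le_of_le_one_left (abs_nonneg _) hs1).trans h0
  exact (abs_sub_le _ (share p * recipLogSum m) _).trans (by linarith)

/-- `∑ 1 / q` over the `q ≤ N`, `q ≡ 1 (mod p)`, for the `p ≤ log log N`. -/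
theorem eventually_le_classRecip : ∀ᶠ N : ℕ in atTop, ∀ p : ℕ, p.Prime →
    (p : ℝ) ≤ loglog N → loglog N / (4 * p) ≤ classRecip N p := by
  obtain ⟨C, hC, hlev⟩ := eventually_level_single
  obtain ⟨C₁, hC₁⟩ := FA.ErdosKac.exists_abs_recipSum_sub_le
  have hC₁0 : 0 ≤ C₁ := (abs_nonneg _).trans (hC₁ 2 le_rfl)
  obtain ⟨m₀, hm₀⟩ := eventually_atTop.1 hlev
  have hl : Tendsto (fun N : ℕ => Real.log N) atTop atTop :=
    Real.tendsto_log_atTop.comp tendsto_natCast_atTop_atTop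
  filter_upwards [tendsto_loglog.eventually_ge_atTop (max 4 (40 * C + 8 * C₁ + 8)),
    tendsto_loglog.eventually ((Real.isLittleO_log_id_atTop.def
      (show (0 : ℝ) < 1 / 8 by norm_num))),
    hl.eventually_ge_atTop (m₀ : ℝ),
    hl.eventually ((Real.isLittleO_pow_log_id_atTop (n := 4)).def one_pos),
    eventually_ge_atTop 2]
    with N hL hlogL hm₀N hpow4 hN p hp hpL
  obtain ⟨L, hLdef⟩ : ∃ L, L = loglog N := ⟨_, rfl⟩
  obtain ⟨ℓ, hℓ⟩ : ∃ ℓ, ℓ = Real.log N := ⟨_, rfl⟩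
  rw [← hLdef] at hL hlogL hpL ⊢
  rw [← hℓ] at hm₀N hpow4
  have hL4 : 4 ≤ L := le_of_max_le_left hL
  have hLC : 40 * C + 8 * C₁ + 8 ≤ L := le_of_max_le_right hL
  have hℓ0 : 0 < ℓ := hℓ ▸ Real.log_pos (Nat.one_lt_cast.2 (by omega))
  have hexpL : Real.exp L = ℓ := by rw [hLdef, loglog, ← hℓ, Real.exp_log hℓ0]
  have hℓ5 : 5 ≤ ℓ := by linarith [Real.add_one_le_exp L]
  rw [id, Real.norm_eq_abs, abs_of_nonneg (Real.log_nonneg (by linarith)),
    Real.norm_of_nonneg (by linarith : (0 : ℝ) ≤ L)] at hlogL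
  rw [id, Real.norm_of_nonneg (by positivity), Real.norm_of_nonneg hℓ0.le, one_mul,
    show Real.log ℓ = L by rw [hLdef, loglog, hℓ]] at hpow4
  obtain ⟨m₁, hm₁⟩ : ∃ m₁, m₁ = ⌈ℓ⌉₊ := ⟨_, rfl⟩
  have hm1 : ℓ ≤ m₁ := hm₁ ▸ Nat.le_ceil ℓ
  have hm1' : (m₁ : ℝ) ≤ 2 * ℓ := by
    rw [hm₁]
    linarith [Nat.ceil_lt_add_one hℓ0.le]
  have hm12 : 2 ≤ m₁ := by
    have : (2 : ℝ) ≤ m₁ := by linarith
    exact_mod_cast this
  have hm10 : m₀ ≤ m₁ := by
    have : (m₀ : ℝ) ≤ m₁ := hm₀N.trans hm1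
    exact_mod_cast this
  have hpm : p ^ 4 ≤ m₁ := by
    have : (p : ℝ) ^ 4 ≤ m₁ :=
      (pow_le_pow_left₀ (Nat.cast_nonneg p) hpL 4).trans (hpow4.trans hm1)
    exact_mod_cast this
  have hlm1 : L ≤ Real.log m₁ := by
    rw [show L = Real.log ℓ by rw [hLdef, loglog, hℓ]]
    exact Real.log_le_log hℓ0 hm1
  obtain ⟨g, hg⟩ : ∃ g : ℕ → ℝ, g = fun q => (if p ∣ q - 1 then (1 : ℝ) else 0) - share p :=
    ⟨_, rfl⟩
  obtain ⟨h, hh⟩ : ∃ h : ℕ → ℝ, h = fun q => if m₁ < q then g q else 0 := ⟨_, rfl⟩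
  have hgsum : ∀ m, m₁ ≤ m → |∑ q ∈ primesUpTo m, g q| ≤
      C * ((m : ℝ) / Real.log m ^ 6) := fun m hm => by
    rw [hg, sum_sub_distrib, sum_boole, sum_const, nsmul_eq_mul, mul_comm _ (share p)]
    exact hm₀ m (hm10.trans hm) p hp (hpm.trans hm)
  have hbound : ∀ m, 2 ≤ m → m ≤ N → |∑ q ∈ primesUpTo m, h q| ≤
      2 * C / L ^ 5 * ((m : ℝ) / Real.log m) := fun m hm _ => by
    have hD := FA.OmegaPhi.div_log_pos hm
    rcases le_or_gt m m₁ with hle | hlt
    · rw [sum_eq_zero fun q hq => by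
        rw [hh]; exact if_neg (not_lt.2 ((mem_primesUpTo.1 hq).2.trans hle)), abs_zero]
      positivity
    have hsub := FA.OmegaPhi.primesUpTo_mono hlt.le
    have e : ∑ q ∈ primesUpTo m, h q =
        ∑ q ∈ primesUpTo m, g q - ∑ q ∈ primesUpTo m₁, g q := by
      rw [← sum_sdiff hsub (f := g), add_sub_cancel_right, hh, ← sum_filter]
      refine sum_congr ?_ fun _ _ => rfl
      ext q
      simp only [mem_filter, Finset.mem_sdiff, mem_primesUpTo]
      exact ⟨fun ⟨hq, hlt⟩ => ⟨hq, fun h => absurd h.2 (not_le.2 hlt)⟩,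
        fun ⟨hq, hn⟩ => ⟨hq, not_le.1 fun h => hn ⟨hq.1, h⟩⟩⟩
    have hsmall : ∀ k, m₁ ≤ k → (k : ℝ) / Real.log k ^ 6 ≤ 1 / L ^ 5 * (k / Real.log k) :=
      fun k hk => by
      have hk0 : L ≤ Real.log k :=
        hlm1.trans (Real.log_le_log (by linarith) (Nat.cast_le.2 hk))
      have hlk : 0 < Real.log k := by linarith
      rw [show (k : ℝ) / Real.log k ^ 6 = 1 / Real.log k ^ 5 * (k / Real.log k) by field_simp]
      refine mul_le_mul_of_nonneg_right (one_div_le_one_div_of_le (by positivity)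
        (pow_le_pow_left₀ (by linarith) hk0 5)) (div_nonneg (Nat.cast_nonneg k) hlk.le)
    have hmono : (m₁ : ℝ) / Real.log m₁ ≤ m / Real.log m := by
      have hm10' : (0 : ℝ) < m₁ := by linarith
      have hm0 : (0 : ℝ) < m := Nat.cast_pos.2 (by omega)
      rw [div_le_div_iff₀ (by linarith) (Real.log_pos (Nat.one_lt_cast.2 (by omega)))]
      have h1 := Real.log_le_sub_one_of_pos (div_pos hm0 hm10')
      rw [Real.log_div hm0.ne' hm10'.ne'] at h1
      have h2 := mul_le_mul_of_nonneg_left h1 hm10'.le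
      rw [mul_sub, mul_sub, mul_div_cancel₀ _ hm10'.ne', mul_one] at h2
      have h3 := mul_nonneg (sub_nonneg.2 (Nat.cast_le.2 hlt.le : (m₁ : ℝ) ≤ m))
        (show 0 ≤ Real.log m₁ - 1 by linarith)
      linarith
    rw [e]
    refine (abs_sub _ _).trans ((add_le_add (hgsum m hlt.le) (hgsum m₁ le_rfl)).trans ?_)
    have h1 := mul_le_mul_of_nonneg_left (hsmall m hlt.le) hC.le
    have h2 := mul_le_mul_of_nonneg_left ((hsmall m₁ le_rfl).trans
      (mul_le_mul_of_nonneg_left hmono (by positivity))) hC.le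
    linarith [show 2 * C / L ^ 5 * ((m : ℝ) / Real.log m) =
      2 * (C * (1 / L ^ 5 * ((m : ℝ) / Real.log m))) by ring]
  have hmain := (abs_le.1 (FA.OmegaPhi.abs_sum_div_le hN hbound)).1
  rw [← hLdef] at hmain
  obtain ⟨hs0, -⟩ := FA.ShiftedPrimeOmega.share_bounds hp.two_le
  have hlow : ∑ q ∈ primesUpTo N, h q / q + share p * recipSum N - share p * recipSum m₁ ≤
      classRecip N p := by
    have h1 : ∑ q ∈ primesUpTo N, (if q ≤ m₁ then (q : ℝ)⁻¹ else 0) ≤ recipSum m₁ := by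
      rw [← sum_filter, recipSum]
      exact sum_le_sum_of_subset_of_nonneg (fun q hq => mem_primesUpTo.2
        ⟨(mem_primesUpTo.1 (mem_filter.1 hq).1).1, (mem_filter.1 hq).2⟩)
        fun _ _ _ => by positivity
    have h2 : ∑ q ∈ primesUpTo N, h q / q + share p * recipSum N -
        share p * ∑ q ∈ primesUpTo N, (if q ≤ m₁ then (q : ℝ)⁻¹ else 0) ≤ classRecip N p := by
      rw [recipSum, classRecip, sum_filter, mul_sum, mul_sum, ← sum_add_distrib,
        ← sum_sub_distrib]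
      refine sum_le_sum fun q _ => ?_
      have h0 : (0 : ℝ) ≤ (q : ℝ)⁻¹ := by positivity
      rw [hh, hg, div_eq_mul_inv]
      dsimp only
      split_ifs <;> first | omega | linarith
    linarith [mul_le_mul_of_nonneg_left h1 hs0]
  have hR : L - C₁ ≤ recipSum N := by
    rw [hLdef, loglog]
    linarith [(abs_le.1 (hC₁ N hN)).1]
  have hR1 : recipSum m₁ ≤ L / 4 + C₁ + 1 := by
    have h1 : Real.log (Real.log m₁) ≤ Real.log (2 * L) := by
      refine Real.log_le_log (by linarith) ?_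
      refine (Real.log_le_log (by linarith) hm1').trans ?_
      rw [Real.log_mul two_ne_zero hℓ0.ne', show Real.log ℓ = L by rw [hLdef, loglog, hℓ]]
      linarith [Real.log_two_lt_d9]
    rw [Real.log_mul two_ne_zero (by linarith)] at h1
    linarith [(abs_le.1 (hC₁ m₁ hm12)).2, Real.log_two_lt_d9]
  refine le_trans ?_ hlow
  have hp0 : (0 : ℝ) < p := Nat.cast_pos.2 hp.pos
  have hsp : (p : ℝ)⁻¹ ≤ share p := by
    rw [share]
    exact inv_anti₀ (by linarith [show (2 : ℝ) ≤ p from by exact_mod_cast hp.two_le]) (by linarith)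
  have h4 : share p * (L / 2) ≤ share p * (recipSum N - recipSum m₁) :=
    mul_le_mul_of_nonneg_left (by linarith) hs0
  have h5 : (p : ℝ)⁻¹ * (L / 2) ≤ share p * (L / 2) :=
    mul_le_mul_of_nonneg_right hsp (by linarith)
  have h6 : 2 * C / L ^ 5 * (L + 4) ≤ L / (4 * p) := by
    rw [div_mul_eq_mul_div, div_le_div_iff₀ (by positivity) (by positivity)]
    have a1 := mul_le_mul (show L + 4 ≤ 2 * L by linarith) hpL (Nat.cast_nonneg p) (by positivity)
    have a2 := mul_le_mul_of_nonneg_left a1 (show 0 ≤ 8 * C by linarith)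
    have a3 := mul_le_mul_of_nonneg_right (show 16 * C ≤ L by linarith) (sq_nonneg L)
    have a4 := mul_le_mul_of_nonneg_left (one_le_pow₀ (n := 3) (show 1 ≤ L by linarith))
      (pow_nonneg (show 0 ≤ L by linarith) 3)
    linarith
  rw [show L / (4 * p) = (p : ℝ)⁻¹ * (L / 2) / 2 by field_simp; ring] at h6 ⊢
  linarith

/-- **The `n ≤ N` with no prime `q ≡ 1 (mod p)` dividing them.** -/
theorem exists_no_class_le : ∃ C : ℝ, 0 ≤ C ∧ ∀ᶠ N : ℕ in atTop, ∀ p : ℕ, p.Prime →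
    (p : ℝ) ≤ loglog N →
    (((Icc 1 N).filter fun n => ∀ q ∈ n.primeFactors, ¬p ∣ q - 1).card : ℝ) ≤
      C * N * Real.exp (-(loglog N / (4 * p))) := by
  obtain ⟨CH, hCH, hH⟩ := FA.HooleyDelta.exists_sum_le
  obtain ⟨C₁, hC₁⟩ := FA.ErdosKac.exists_abs_recipSum_sub_le
  refine ⟨CH * Real.exp C₁, by positivity, ?_⟩
  filter_upwards [eventually_le_classRecip, eventually_ge_atTop 2] with N hcl hN p hp hpL
  obtain ⟨f, hf⟩ : ∃ f : ℕ → ℝ,
      f = fun n => if n ≠ 0 ∧ ∀ q ∈ n.primeFactors, ¬p ∣ q - 1 then 1 else 0 := ⟨_, rfl⟩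
  have hsum : ∑ n ∈ Icc 1 N, f n ≤
      CH * ((N : ℝ) / Real.log N) * Real.exp (∑ q ∈ primesUpTo N, f q / q) := by
    refine hH f (fun n => by rw [hf]; dsimp only; split_ifs <;> norm_num) (by simp [hf])
      (fun m n _ => ?_) (fun n => ?_) N hN
    · rw [hf]
      dsimp only
      rw [ite_zero_mul_ite_zero, one_mul]
      refine if_congr ?_ rfl rfl
      by_cases hm : m = 0
      · simp [hm]
      by_cases hn : n = 0
      · simp [hn]
      rw [Nat.primeFactors_mul hm hn, forall_mem_union]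
      simp [hm, hn]
    · rw [hf]
      dsimp only
      split_ifs with h
      · exact Nat.one_le_cast.2 (card_pos.2 (Nat.nonempty_divisors.2 h.1))
      · exact Nat.cast_nonneg _
  have hexp : ∑ q ∈ primesUpTo N, f q / q = recipSum N - classRecip N p := by
    rw [recipSum, classRecip, sum_filter, ← sum_sub_distrib]
    refine sum_congr rfl fun q hq => ?_
    have hqp := (mem_primesUpTo.1 hq).1
    rw [hf]
    simp only [hqp.primeFactors, forall_eq, mem_singleton, hqp.ne_zero, ne_eq, not_false_eq_true,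
      true_and]
    split_ifs <;> simp
  have hcard : ∑ n ∈ Icc 1 N, f n =
      (((Icc 1 N).filter fun n => ∀ q ∈ n.primeFactors, ¬p ∣ q - 1).card : ℝ) := by
    rw [hf, sum_boole]
    exact congrArg (Nat.cast ∘ card) (filter_congr fun n hn =>
      and_iff_right (Nat.one_le_iff_ne_zero.1 (mem_Icc.1 hn).1))
  rw [hexp, hcard] at hsum
  have hl : 0 < Real.log N := Real.log_pos (Nat.one_lt_cast.2 (by omega))
  refine hsum.trans ((mul_le_mul_of_nonneg_left (Real.exp_le_exp.2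
    (show recipSum N - classRecip N p ≤ C₁ + loglog N + -(loglog N / (4 * p)) by
      rw [loglog] at *
      linarith [(abs_le.1 (hC₁ N hN)).2, hcl p hp hpL])) (by positivity)).trans (le_of_eq ?_))
  rw [Real.exp_add, Real.exp_add, loglog, Real.exp_log hl]
  field_simp

/-- The `n ≤ N` prime to `φ n`. -/
def primeToTotient (N : ℕ) : Finset ℕ := (Icc 1 N).filter fun n => n.Coprime n.totient

/-- A rough `n` not prime to `φ n` has a square or a pair `p q`, `p ∣ q - 1`, of large primes. -/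
theorem exists_of_not_coprime {n z : ℕ} (hn : n ≠ 0) (hrough : ∀ p ∈ primesUpTo z, ¬p ∣ n)
    (h : ¬n.Coprime n.totient) :
    ∃ p, p.Prime ∧ z < p ∧ (p ^ 2 ∣ n ∨ ∃ q, q.Prime ∧ p ∣ q - 1 ∧ p * q ∣ n) := by
  obtain ⟨p, hp, hpn, hpφ⟩ := Nat.Prime.not_coprime_iff_dvd.1 h
  refine ⟨p, hp, lt_of_not_ge fun hle => hrough p (mem_primesUpTo.2 ⟨hp, hle⟩) hpn, ?_⟩
  rw [FA.OmegaPhi.totient_eq_prod hn] at hpφ
  obtain ⟨q, hq, hd⟩ := (hp.prime.dvd_finsetProd_iff _).1 hpφ
  obtain ⟨hqp, hqn, -⟩ := Nat.mem_primeFactors.1 hq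
  rcases (Nat.Prime.dvd_mul hp).1 hd with hd | hd
  · refine Or.inl ?_
    obtain ⟨hne, heq⟩ : n.factorization q - 1 ≠ 0 ∧ p = q := ⟨fun h0 => by
      rw [h0, pow_zero] at hd
      exact hp.not_dvd_one hd, (Nat.prime_dvd_prime_iff_eq hp hqp).1 (hp.dvd_of_dvd_pow hd)⟩
    rw [heq]
    exact (hqp.pow_dvd_iff_le_factorization hn).2 (by omega)
  · refine Or.inr ⟨q, hqp, hd, Nat.Coprime.mul_dvd_of_dvd_of_dvd
      ((Nat.coprime_primes hp hqp).2 fun heq => ?_) hpn hqn⟩
    have h1 := Nat.le_of_dvd (Nat.sub_pos_of_lt hqp.one_lt) hd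
    have := hqp.one_lt
    omega

theorem card_dvd_le (N d : ℕ) :
    (((Icc 1 N).filter fun n => d ∣ n).card : ℝ) ≤ N * (d : ℝ)⁻¹ := by
  rw [← zero_add 1, Finset.Icc_add_one_left_eq_Ioc, Nat.Ioc_filter_dvd_card_eq_div,
    ← div_eq_mul_inv]
  exact Nat.cast_div_le

theorem sum_inv_sq_above_le (N z : ℕ) :
    ∑ p ∈ (primesUpTo N).filter (fun p => z < p), ((p : ℝ) ^ 2)⁻¹ ≤ 2 / ((z : ℝ) + 1) :=
  (sum_le_sum_of_subset_of_nonneg (t := Ioo z (N + 1)) (fun p hp => by
    obtain ⟨hp, hz⟩ := mem_filter.1 hp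
    exact mem_Ioo.2 ⟨hz, Nat.lt_succ_of_le (mem_primesUpTo.1 hp).2⟩)
    fun _ _ _ => by positivity).trans (sum_Ioo_inv_sq_le z (N + 1))

/-- `∑_{p > z} 1 / p` times the sum of `1 / q` over the class `1 (mod p)`. -/
theorem exists_sum_inv_classRecip_le : ∃ C : ℝ, 0 ≤ C ∧ ∀ᶠ N : ℕ in atTop, ∀ z : ℕ,
    ∑ p ∈ (primesUpTo N).filter (fun p => z < p), (p : ℝ)⁻¹ * classRecip N p ≤
      C * (loglog N / ((z : ℝ) + 1) + 1 / Real.log N ^ 2) := by
  obtain ⟨C, hC, hcl⟩ := FA.CarmichaelOrder.exists_classRecip_le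
  refine ⟨4 * C + 4, by positivity, ?_⟩
  filter_upwards [hcl, tendsto_loglog.eventually_ge_atTop 1, eventually_ge_atTop 3]
    with N hcl hL hN z
  obtain ⟨P, hP⟩ : ∃ P, P = (primesUpTo N).filter fun p => z < p := ⟨_, rfl⟩
  rw [← hP]
  obtain ⟨ℓ, hℓ⟩ : ∃ ℓ, ℓ = Real.log N := ⟨_, rfl⟩
  have hℓ1 : 1 ≤ ℓ := by
    rw [hℓ, ← Real.log_exp 1]
    refine Real.log_le_log (Real.exp_pos 1) (le_trans (le_of_lt Real.exp_one_lt_d9) ?_)
    linarith [show (3 : ℝ) ≤ N from by exact_mod_cast hN]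
  obtain ⟨M, hM⟩ : ∃ M, M = ⌊ℓ ^ 3⌋₊ := ⟨_, rfl⟩
  refine le_trans (b := 2 * C * loglog N * (2 / ((z : ℝ) + 1)) + (1 + ℓ) * (2 / ((M : ℝ) + 1)))
    ?_ ?_
  · refine (sum_le_sum (g := fun p : ℕ => 2 * C * loglog N * ((p : ℝ) ^ 2)⁻¹ +
      (1 + ℓ) * if M < p then ((p : ℝ) ^ 2)⁻¹ else 0) fun p hp => ?_).trans ?_
    · rw [hP] at hp
      have hpp := (mem_primesUpTo.1 (mem_filter.1 hp).1).1
      have hp2 : (2 : ℝ) ≤ p := by exact_mod_cast hpp.two_le
      have hi : 0 ≤ ((p : ℝ) ^ 2)⁻¹ := by positivity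
      split_ifs with hMp
      · have h1 := mul_le_mul_of_nonneg_left (FA.OmegaPhi.recip_class_le hpp.pos N)
          (show (0 : ℝ) ≤ (p : ℝ)⁻¹ by positivity)
        refine le_add_of_nonneg_of_le (by positivity) ?_
        refine (le_of_le_of_eq h1 ?_)
        rw [hℓ]
        field_simp
      · rw [not_lt, hM, Nat.le_floor_iff (by positivity), hℓ] at hMp
        have h1 := hcl p hpp.two_le hMp
        rw [Nat.totient_prime hpp, Nat.cast_sub hpp.one_le, Nat.cast_one] at h1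
        rw [mul_zero, add_zero]
        refine (mul_le_mul_of_nonneg_left h1 (by positivity)).trans ?_
        rw [show (p : ℝ)⁻¹ * (C * (loglog N / ((p : ℝ) - 1))) =
            C * loglog N * ((p : ℝ)⁻¹ * ((p : ℝ) - 1)⁻¹) by ring,
          show 2 * C * loglog N * ((p : ℝ) ^ 2)⁻¹ =
            C * loglog N * ((p : ℝ)⁻¹ * (2 * (p : ℝ)⁻¹)) by ring]
        refine mul_le_mul_of_nonneg_left (mul_le_mul_of_nonneg_left ?_ (by positivity))
          (by positivity)
        rw [← one_div, ← div_eq_mul_inv, div_le_div_iff₀ (by linarith) (by linarith)]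
        linarith
    rw [sum_add_distrib, ← mul_sum, ← mul_sum, ← sum_filter, hP, filter_filter]
    refine add_le_add (mul_le_mul_of_nonneg_left (sum_inv_sq_above_le N z) (by positivity))
      (mul_le_mul_of_nonneg_left ?_ (by linarith))
    refine (sum_le_sum_of_subset_of_nonneg (t := (primesUpTo N).filter fun p => M < p)
      (fun p hp => ?_) fun _ _ _ => by positivity).trans (sum_inv_sq_above_le N M)
    obtain ⟨hp, -, hMp⟩ := mem_filter.1 hp
    exact mem_filter.2 ⟨hp, hMp⟩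
  have hMℓ : (1 + ℓ) * (2 / ((M : ℝ) + 1)) ≤ 4 * (1 / ℓ ^ 2) := by
    rw [mul_div_assoc', mul_one_div, div_le_div_iff₀ (by positivity) (by positivity)]
    have h1 := mul_le_mul_of_nonneg_right (show (1 + ℓ) * 2 ≤ 4 * ℓ by linarith) (sq_nonneg ℓ)
    have h2 : ℓ ^ 3 < (M : ℝ) + 1 := hM ▸ Nat.lt_floor_add_one _
    linarith
  rw [← hℓ, show 2 * C * loglog N * (2 / ((z : ℝ) + 1)) =
    4 * C * (loglog N / ((z : ℝ) + 1)) by ring]
  have h1 : 0 ≤ loglog N / ((z : ℝ) + 1) := by positivity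
  have h2 : 0 ≤ C * (1 / ℓ ^ 2) := by positivity
  linarith

/-- **The rough `n` not prime to `φ n` are few.** -/
theorem exists_rough_bad_le : ∃ C : ℝ, 0 ≤ C ∧ ∀ᶠ N : ℕ in atTop, ∀ z : ℕ,
    ((rough N z).card : ℝ) ≤ (primeToTotient N).card +
      C * N * (loglog N / ((z : ℝ) + 1) + 1 / Real.log N ^ 2) := by
  obtain ⟨C, hC, hsumle⟩ := exists_sum_inv_classRecip_le
  refine ⟨C + 2, by positivity, ?_⟩
  filter_upwards [hsumle, tendsto_loglog.eventually_ge_atTop 1, eventually_ge_atTop 3]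
    with N hsumle hL hN z
  obtain ⟨P, hP⟩ : ∃ P, P = (primesUpTo N).filter fun p => z < p := ⟨_, rfl⟩
  obtain ⟨S, hS⟩ : ∃ S, S = P.biUnion fun p => (Icc 1 N).filter fun n => p ^ 2 ∣ n := ⟨_, rfl⟩
  obtain ⟨D, hD⟩ : ∃ D, D = P.biUnion fun p => ((primesUpTo N).filter fun q => p ∣ q - 1).biUnion
      fun q => (Icc 1 N).filter fun n => p * q ∣ n := ⟨_, rfl⟩
  have hsub : rough N z ⊆ primeToTotient N ∪ (S ∪ D) := fun n hn => by
    rw [rough, mem_filter] at hn
    by_cases h : n.Coprime n.totient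
    · exact mem_union_left _ (mem_filter.2 ⟨hn.1, h⟩)
    have hn1 := (mem_Icc.1 hn.1).1
    have hnN := (mem_Icc.1 hn.1).2
    obtain ⟨p, hp, hzp, hc⟩ := exists_of_not_coprime (by omega) hn.2 h
    refine mem_union_right _ ?_
    rcases hc with hsq | ⟨q, hq, hpq, hd⟩
    · have hpN := (Nat.le_of_dvd hn1 ((dvd_pow_self p two_ne_zero).trans hsq)).trans hnN
      refine mem_union_left _ ?_
      rw [hS, mem_biUnion]
      exact ⟨p, hP ▸ mem_filter.2 ⟨mem_primesUpTo.2 ⟨hp, hpN⟩, hzp⟩, mem_filter.2 ⟨hn.1, hsq⟩⟩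
    · have hpN := (Nat.le_of_dvd hn1 ((dvd_mul_right p q).trans hd)).trans hnN
      have hqN := (Nat.le_of_dvd hn1 ((dvd_mul_left q p).trans hd)).trans hnN
      refine mem_union_right _ ?_
      rw [hD, mem_biUnion]
      refine ⟨p, hP ▸ mem_filter.2 ⟨mem_primesUpTo.2 ⟨hp, hpN⟩, hzp⟩, ?_⟩
      rw [mem_biUnion]
      exact ⟨q, mem_filter.2 ⟨mem_primesUpTo.2 ⟨hq, hqN⟩, hpq⟩, mem_filter.2 ⟨hn.1, hd⟩⟩
  have hSle : (S.card : ℝ) ≤ N * (2 / ((z : ℝ) + 1)) := by
    refine (Nat.cast_le.2 (hS ▸ card_biUnion_le)).trans ?_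
    rw [Nat.cast_sum]
    refine (sum_le_sum fun p _ => card_dvd_le N (p ^ 2)).trans ?_
    rw [← mul_sum, hP]
    refine mul_le_mul_of_nonneg_left ?_ (Nat.cast_nonneg N)
    simp only [Nat.cast_pow]
    exact sum_inv_sq_above_le N z
  have hDle : (D.card : ℝ) ≤ N * (C * (loglog N / ((z : ℝ) + 1) + 1 / Real.log N ^ 2)) := by
    refine (Nat.cast_le.2 (hD ▸ card_biUnion_le)).trans ?_
    rw [Nat.cast_sum]
    refine (sum_le_sum (g := fun p : ℕ => (N : ℝ) * ((p : ℝ)⁻¹ * classRecip N p))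
      fun p _ => ?_).trans ?_
    · refine (Nat.cast_le.2 card_biUnion_le).trans ?_
      rw [Nat.cast_sum]
      refine (sum_le_sum fun q _ => card_dvd_le N (p * q)).trans (le_of_eq ?_)
      rw [classRecip, mul_sum, mul_sum]
      exact sum_congr rfl fun q _ => by rw [Nat.cast_mul, mul_inv]
    rw [← mul_sum]
    exact mul_le_mul_of_nonneg_left (hP ▸ hsumle z) (Nat.cast_nonneg N)
  refine (Nat.cast_le.2 ((card_le_card hsub).trans ((card_union_le _ _).trans
    (Nat.add_le_add le_rfl (card_union_le _ _))))).trans ?_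
  rw [Nat.cast_add, Nat.cast_add]
  refine add_le_add le_rfl ?_
  have h1 : (2 : ℝ) / ((z : ℝ) + 1) ≤ 2 * (loglog N / ((z : ℝ) + 1)) := by
    rw [mul_div_assoc']
    exact div_le_div_of_nonneg_right (by linarith) (by positivity)
  have h2 := mul_le_mul_of_nonneg_left h1 (Nat.cast_nonneg N)
  have h3 : 0 ≤ (N : ℝ) * (1 / Real.log N ^ 2) := by positivity
  linarith

/-- **An `n` prime to `φ n` is rough or misses a class `1 (mod p)`.** -/
theorem primeToTotient_subset (N z : ℕ) : primeToTotient N ⊆ rough N z ∪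
    (primesUpTo z).biUnion fun p => (Icc 1 N).filter fun n => ∀ q ∈ n.primeFactors, ¬p ∣ q - 1 := by
  intro n hn
  rw [primeToTotient, mem_filter] at hn
  by_cases h : ∀ p ∈ primesUpTo z, ¬p ∣ n
  · exact mem_union_left _ (mem_filter.2 ⟨hn.1, h⟩)
  obtain ⟨p, hp, hd⟩ : ∃ p ∈ primesUpTo z, p ∣ n := by
    by_contra hc
    exact h fun p hp hd => hc ⟨p, hp, hd⟩
  refine mem_union_right _ (mem_biUnion.2 ⟨p, hp, mem_filter.2 ⟨hn.1, fun q hq hpq => ?_⟩⟩)
  obtain ⟨hqp, hqn, -⟩ := Nat.mem_primeFactors.1 hq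
  refine Nat.Prime.not_coprime_iff_dvd.2 ⟨p, (mem_primesUpTo.1 hp).1, hd, ?_⟩ hn.2
  exact hpq.trans (Nat.totient_prime hqp ▸ Nat.totient_dvd_of_dvd hqn)

/-- **Erdős's asymptotic.** -/
theorem tendsto_primeToTotient :
    Tendsto (fun N : ℕ => ((primeToTotient N).card : ℝ) * Real.log (loglog N) / N) atTop
      (𝓝 (Real.exp (-Real.eulerMascheroniConstant))) := by
  obtain ⟨c, hc⟩ : ∃ c, c = Real.exp (-Real.eulerMascheroniConstant) := ⟨_, rfl⟩
  have hc0 : 0 < c := hc ▸ Real.exp_pos _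
  rw [← hc]
  obtain ⟨A, hA⟩ : ∃ A : ℕ → ℝ,
      A = fun N => ((primeToTotient N).card : ℝ) * Real.log (loglog N) / N := ⟨_, rfl⟩
  have hcont : ContinuousAt (fun θ : ℝ => c / θ) 1 :=
    continuousAt_const.div continuousAt_id one_ne_zero
  rw [← hA]
  refine tendsto_order.2 ⟨fun a ha => ?_, fun b hb => ?_⟩
  · obtain ⟨θ, ⟨hθ, hθ2⟩, hθ1⟩ := (((hcont.eventually_const_lt (by simpa using ha)).and
      (eventually_lt_nhds (show (1 : ℝ) < 2 by norm_num))).filter_mono nhdsWithin_le_nhds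
        |>.and (self_mem_nhdsWithin (a := (1 : ℝ)) (s := Set.Ioi 1))).exists
    have hθ1' : 1 < θ := hθ1
    obtain ⟨C, hC, hbad⟩ := exists_rough_bad_le
    have hmain := (tendsto_rough (by linarith) hθ2.le).sub (show Tendsto (fun N : ℕ =>
        C * (Real.log (loglog N) * Real.exp (-((θ - 1) * Real.log (loglog N))) +
          Real.exp (-loglog N))) atTop (𝓝 0) by
      have h1 := (Real.tendsto_exp_neg_atTop_nhds_zero.comp tendsto_loglog)
      have h2 := ((tendsto_rpow_mul_exp_neg_mul_atTop_nhds_zero 1 (θ - 1)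
        (by linarith)).comp tendsto_loglogLog)
      have h3 := (h2.add h1).const_mul C
      rw [add_zero, mul_zero] at h3
      refine h3.congr fun N => ?_
      simp only [Function.comp_apply, Real.rpow_one, neg_mul])
    rw [sub_zero, ← hc] at hmain
    filter_upwards [hmain.eventually_const_lt hθ, hbad, tendsto_loglog.eventually_ge_atTop 1,
      eventually_ge_atTop 2] with N hN hbad hL hN2
    refine hN.trans_le ?_
    have hN0 : (0 : ℝ) < N := Nat.cast_pos.2 (by omega)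
    have hK0 : 0 ≤ Real.log (loglog N) := Real.log_nonneg hL
    have h1 : loglog N / ((powCut θ N : ℝ) + 1) ≤
        Real.exp (-((θ - 1) * Real.log (loglog N))) := by
      rw [div_le_iff₀ (by positivity)]
      have hf : Real.exp (θ * Real.log (loglog N)) ≤ (powCut θ N : ℝ) + 1 :=
        (Nat.lt_floor_add_one _).le
      refine le_trans (le_of_eq ?_) (mul_le_mul_of_nonneg_left hf (Real.exp_nonneg _))
      rw [← Real.exp_add, show -((θ - 1) * Real.log (loglog N)) + θ * Real.log (loglog N) =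
        Real.log (loglog N) by ring, Real.exp_log (by linarith)]
    have hl : 0 < Real.log N := Real.log_pos (Nat.one_lt_cast.2 (by omega))
    have h2 : Real.log (loglog N) * (1 / Real.log N ^ 2) ≤ Real.exp (-loglog N) := by
      have h3 : Real.log (loglog N) ≤ Real.log N :=
        (Real.log_le_self (by linarith)).trans (Real.log_le_self hl.le)
      rw [Real.exp_neg, loglog, Real.exp_log hl, mul_one_div, div_le_iff₀ (by positivity),
        sq, ← mul_assoc, inv_mul_cancel₀ hl.ne', one_mul]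
      rwa [loglog] at h3
    have h4 := mul_le_mul_of_nonneg_right (hbad (powCut θ N)) hK0
    rw [hA, sub_le_iff_le_add, div_le_iff₀ hN0, add_mul, div_mul_cancel₀ _ hN0.ne']
    refine h4.trans ?_
    rw [add_mul]
    refine add_le_add le_rfl ?_
    have h5 := mul_le_mul_of_nonneg_left (add_le_add (mul_le_mul_of_nonneg_left h1 hK0) h2)
      (show 0 ≤ C * N by positivity)
    linarith
  · obtain ⟨θ, ⟨hθ, hθ0⟩, hθ1⟩ := (((hcont.eventually_lt_const (by simpa using hb)).and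
      (eventually_gt_nhds (show (1 / 2 : ℝ) < 1 by norm_num))).filter_mono nhdsWithin_le_nhds
        |>.and (self_mem_nhdsWithin (a := (1 : ℝ)) (s := Set.Iio 1))).exists
    have hθ1' : θ < 1 := hθ1
    obtain ⟨C, hC, hno⟩ := exists_no_class_le
    have hε : 0 < 1 - θ := sub_pos.2 hθ1'
    have hu : Tendsto (fun N : ℕ => loglog N ^ (1 - θ)) atTop atTop :=
      (tendsto_rpow_atTop hε).comp tendsto_loglog
    have hmain := (tendsto_rough (show 0 < θ by linarith) (by linarith)).add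
      (show Tendsto (fun N : ℕ =>
        C * (loglog N ^ (2 : ℝ) * Real.exp (-(1 / 4) * loglog N ^ (1 - θ)))) atTop (𝓝 0) by
      have h2 := ((tendsto_rpow_mul_exp_neg_mul_atTop_nhds_zero (2 / (1 - θ)) (1 / 4)
        (by norm_num)).comp hu).const_mul C
      rw [mul_zero] at h2
      refine h2.congr' ?_
      filter_upwards [tendsto_loglog.eventually_ge_atTop 0] with N hL
      simp only [Function.comp_apply]
      rw [← Real.rpow_mul hL, mul_div_cancel₀ _ hε.ne'])
    rw [add_zero, ← hc] at hmain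
    filter_upwards [hmain.eventually_lt_const hθ, hno, tendsto_loglog.eventually_ge_atTop 1,
      eventually_ge_atTop 2] with N hN hno hL hN2
    refine lt_of_le_of_lt ?_ hN
    obtain ⟨L, hLdef⟩ : ∃ L, L = loglog N := ⟨_, rfl⟩
    rw [← hLdef] at hL hno ⊢
    have hN0 : (0 : ℝ) < N := Nat.cast_pos.2 (by omega)
    have hK0 : 0 ≤ Real.log L := Real.log_nonneg hL
    have hz : (powCut θ N : ℝ) ≤ L ^ θ := by
      rw [Real.rpow_def_of_pos (by linarith), mul_comm (Real.log L), powCut, ← hLdef]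
      exact Nat.floor_le (Real.exp_nonneg _)
    have hzL : L ^ θ ≤ L := by
      simpa using Real.rpow_le_rpow_of_exponent_le hL hθ1'.le
    obtain ⟨E, hE⟩ : ∃ E, E = C * N * Real.exp (-(1 / 4) * L ^ (1 - θ)) := ⟨_, rfl⟩
    have hp : ∀ p ∈ primesUpTo (powCut θ N),
        (((Icc 1 N).filter fun n => ∀ q ∈ n.primeFactors, ¬p ∣ q - 1).card : ℝ) ≤ E :=
        fun p hp => by
      obtain ⟨hpp, hpz⟩ := mem_primesUpTo.1 hp
      have hpθ : (p : ℝ) ≤ L ^ θ := (Nat.cast_le.2 hpz).trans hz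
      refine (hno p hpp (hpθ.trans hzL)).trans (hE ▸ mul_le_mul_of_nonneg_left
        (Real.exp_le_exp.2 ?_) (by positivity))
      have hp0 : (0 : ℝ) < p := Nat.cast_pos.2 hpp.pos
      rw [neg_mul, neg_le_neg_iff, Real.rpow_sub (by linarith), Real.rpow_one,
        show (1 / 4 : ℝ) * (L / L ^ θ) = L / (4 * L ^ θ) by ring]
      exact div_le_div_of_nonneg_left (by linarith) (by positivity)
        (mul_le_mul_of_nonneg_left hpθ (by norm_num))
    have h1 : ((primeToTotient N).card : ℝ) ≤ (rough N (powCut θ N)).card + L * E := by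
      refine (Nat.cast_le.2 ((card_le_card (primeToTotient_subset N (powCut θ N))).trans
        ((card_union_le _ _).trans (Nat.add_le_add le_rfl card_biUnion_le)))).trans ?_
      rw [Nat.cast_add, Nat.cast_sum]
      refine add_le_add le_rfl ((sum_le_card_nsmul _ _ E hp).trans ?_)
      rw [nsmul_eq_mul]
      refine mul_le_mul_of_nonneg_right (le_trans ?_ (hz.trans hzL)) (hE ▸ by positivity)
      exact Nat.cast_le.2 ((card_le_card (t := Icc 1 (powCut θ N)) fun p hp => mem_Icc.2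
        ⟨(mem_primesUpTo.1 hp).1.one_le, (mem_primesUpTo.1 hp).2⟩).trans (by simp))
    have hE0 : 0 ≤ E := hE ▸ by positivity
    have h2 := mul_le_mul_of_nonneg_right h1 hK0
    have h3 := mul_le_mul_of_nonneg_left (Real.log_le_self (show 0 ≤ L by linarith))
      (show 0 ≤ L * E by positivity)
    rw [hA]
    dsimp only
    rw [← hLdef, div_le_iff₀ hN0, add_mul, div_mul_cancel₀ _ hN0.ne',
      show C * (L ^ (2 : ℝ) * Real.exp (-(1 / 4) * L ^ (1 - θ))) * N = L ^ 2 * E by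
        rw [hE, Real.rpow_two]; ring]
    linarith

end FA.CyclicCount

end
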