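import Fermat.Agent.CarmichaelOrder.PrimeSums
import Fermat.Agent.MertensThird.Constant

/-!
# The integers free of primes up to a power of `log log N`

By the sieve of Eratosthenes and Mertens' third theorem, those `n ≤ N` without a prime factor
`≤ (log log N) ^ θ` number `~ exp (-γ) N / (θ log log log N)`, for `0 < θ ≤ 2`.
-/

set_option autoImplicit false

noncomputable section

namespace FA.CyclicCount

open Finset Filter
open FA.ErdosKac (primesUpTo mem_primesUpTo loglog tendsto_loglog)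
open FA.CarmichaelOrder (tendsto_loglogLog)
open scoped Topology

/-- The `n ≤ N` without a prime factor `≤ z`. -/
def rough (N z : ℕ) : Finset ℕ := (Icc 1 N).filter fun n => ∀ p ∈ primesUpTo z, ¬p ∣ n

/-- The cut `(log log N) ^ θ`. -/
def powCut (θ : ℝ) (N : ℕ) : ℕ := ⌊Real.exp (θ * Real.log (loglog N))⌋₊

/-- **The sieve of Eratosthenes.** -/
theorem abs_card_rough_sub_le (N z : ℕ) :
    |((rough N z).card : ℝ) - N * ∏ p ∈ primesUpTo z, (1 - (p : ℝ)⁻¹)| ≤ 2 ^ z := by
  obtain ⟨P, hP⟩ : ∃ P, P = primesUpTo z := ⟨_, rfl⟩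
  have hPp : ∀ p ∈ P, p.Prime := fun p hp => (mem_primesUpTo.1 (hP ▸ hp)).1
  have hexp : ∀ w : ℕ → ℝ, ∏ p ∈ P, (1 - w p) = ∑ T ∈ P.powerset, ∏ p ∈ T, -w p := fun w => by
    rw [prod_congr rfl fun p _ => (neg_add_eq_sub (w p) 1).symm, prod_add]
    exact sum_congr rfl fun T _ => by rw [prod_const_one, mul_one]
  have hI : ((rough N z).card : ℝ) =
      ∑ n ∈ Ioc 0 N, ∏ p ∈ P, (1 - if p ∣ n then (1 : ℝ) else 0) := by
    rw [rough, ← hP, ← Finset.Icc_add_one_left_eq_Ioc, zero_add, ← sum_boole]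
    refine sum_congr rfl fun n _ => ?_
    by_cases h : ∀ p ∈ P, ¬p ∣ n
    · rw [if_pos h, prod_eq_one fun p hp => by rw [if_neg (h p hp), sub_zero]]
    · obtain ⟨p, hp, hd⟩ : ∃ p ∈ P, p ∣ n := by
        by_contra hc
        exact h fun p hp hd => hc ⟨p, hp, hd⟩
      rw [if_neg h, prod_eq_zero hp (by rw [if_pos hd, sub_self])]
  rw [hI, ← hP, sum_congr rfl fun n _ => hexp _, sum_comm, hexp, mul_sum, ← sum_sub_distrib]
  refine (abs_sum_le_sum_abs _ _).trans ((sum_le_card_nsmul _ _ 1 fun T hT => ?_).trans ?_)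
  · rw [mem_powerset] at hT
    have hd : ∀ n, ∏ p ∈ T, -(if p ∣ n then (1 : ℝ) else 0) =
        (-1) ^ T.card * (if (∏ p ∈ T, p) ∣ n then 1 else 0) := fun n => by
      by_cases h : ∀ p ∈ T, p ∣ n
      · rw [if_pos (prod_primes_dvd n (fun p hp => (hPp p (hT hp)).prime) h), mul_one,
          ← prod_const]
        exact prod_congr rfl fun p hp => by rw [if_pos (h p hp)]
      · rw [if_neg fun hd => h fun p hp => (dvd_prod_of_mem (fun i => i) hp).trans hd, mul_zero]
        obtain ⟨p, hp, hnd⟩ : ∃ p ∈ T, ¬p ∣ n := by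
          by_contra hc
          exact h fun p hp => by_contra fun hd => hc ⟨p, hp, hd⟩
        exact prod_eq_zero hp (by rw [if_neg hnd, neg_zero])
    obtain ⟨d, hd'⟩ : ∃ d, d = ∏ p ∈ T, p := ⟨_, rfl⟩
    rw [sum_congr rfl fun n _ => hd n, ← hd', ← mul_sum, sum_boole,
      Nat.Ioc_filter_dvd_card_eq_div, prod_neg, prod_inv_distrib, ← Nat.cast_prod, ← hd',
      mul_left_comm (N : ℝ), ← mul_sub, abs_mul, abs_pow, abs_neg, abs_one, one_pow, one_mul,
      ← div_eq_mul_inv, abs_le]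
    have h1 := Nat.cast_div_le (α := ℝ) (m := N) (n := d)
    have hd0 : 0 < d := hd' ▸ prod_pos fun p hp => (hPp p (hT hp)).pos
    have h2 : (N : ℝ) / d < ((N / d : ℕ) : ℝ) + 1 := by
      rw [div_lt_iff₀ (Nat.cast_pos.2 hd0)]
      exact_mod_cast (Nat.lt_mul_div_succ N hd0).trans_eq (mul_comm _ _)
    constructor <;> linarith
  · rw [card_powerset, nsmul_eq_mul, mul_one, Nat.cast_pow, Nat.cast_ofNat]
    refine pow_le_pow_right₀ one_le_two ?_
    rw [hP]
    refine (card_le_card (t := Icc 1 z) fun p hp => ?_).trans (by simp)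
    exact mem_Icc.2 ⟨(mem_primesUpTo.1 hp).1.one_le, (mem_primesUpTo.1 hp).2⟩

theorem eventually_two_pow_le : ∀ᶠ N : ℕ in atTop,
    ∀ z : ℕ, (z : ℝ) ≤ loglog N ^ 2 → (2 : ℝ) ^ z * Real.log (loglog N) / N ≤
      Real.exp (-(1 / 2 * Real.log N)) := by
  have hl : Tendsto (fun N : ℕ => Real.log N) atTop atTop :=
    Real.tendsto_log_atTop.comp tendsto_natCast_atTop_atTop
  filter_upwards [hl.eventually ((Real.isLittleO_pow_log_id_atTop (n := 2)).def
      (show (0 : ℝ) < 1 / 4 by norm_num)),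
    tendsto_loglog.eventually_ge_atTop 1, hl.eventually_ge_atTop 1, eventually_ge_atTop 1]
    with N h hL hl1 hN z hz
  rw [Real.norm_of_nonneg (sq_nonneg _), id, Real.norm_of_nonneg (zero_le_one.trans hl1)] at h
  rw [← loglog] at h
  have hN0 : (0 : ℝ) < N := Nat.cast_pos.2 hN
  have h1 : (2 : ℝ) ^ z ≤ Real.exp (loglog N ^ 2) := by
    rw [← Real.exp_log (show (0 : ℝ) < 2 by norm_num), ← Real.exp_nat_mul]
    refine Real.exp_le_exp.2 (le_trans ?_ hz)
    exact mul_le_of_le_one_right (Nat.cast_nonneg z) (by linarith [Real.log_two_lt_d9])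
  have h2 : Real.log (loglog N) ≤ Real.exp (loglog N) :=
    (Real.log_le_self (by linarith)).trans (by linarith [Real.add_one_le_exp (loglog N)])
  rw [div_le_iff₀ hN0]
  refine (mul_le_mul h1 h2 (Real.log_nonneg hL) (Real.exp_nonneg _)).trans ?_
  conv_rhs => arg 2; rw [← Real.exp_log hN0]
  rw [← Real.exp_add, ← Real.exp_add]
  refine Real.exp_le_exp.2 ?_
  have := le_self_pow₀ hL two_ne_zero
  linarith

theorem powCut_le {θ : ℝ} (hθ : θ ≤ 2) {N : ℕ} (hL : 1 ≤ loglog N) :
    (powCut θ N : ℝ) ≤ loglog N ^ 2 := by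
  refine (Nat.floor_le (Real.exp_nonneg _)).trans ?_
  refine (Real.exp_le_exp.2 (mul_le_mul_of_nonneg_right hθ (Real.log_nonneg hL))).trans_eq ?_
  rw [show (2 : ℝ) = ((2 : ℕ) : ℝ) by norm_num, Real.exp_nat_mul,
    Real.exp_log (by linarith)]

/-- **The count of the rough numbers.** -/
theorem tendsto_rough {θ : ℝ} (hθ : 0 < θ) (hθ2 : θ ≤ 2) :
    Tendsto (fun N : ℕ => ((rough N (powCut θ N)).card : ℝ) * Real.log (loglog N) / N) atTop
      (𝓝 (Real.exp (-Real.eulerMascheroniConstant) / θ)) := by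
  have hx : Tendsto (fun N : ℕ => Real.exp (θ * Real.log (loglog N))) atTop atTop :=
    Real.tendsto_exp_atTop.comp (tendsto_loglogLog.const_mul_atTop hθ)
  have hm := (FA.MertensThird.tendsto_log_mul_prod.comp hx).div_const θ
  have h0 : Tendsto (fun N : ℕ => Real.exp (-(1 / 2 * Real.log N))) atTop (𝓝 0) :=
    Real.tendsto_exp_neg_atTop_nhds_zero.comp (((Real.tendsto_log_atTop.comp
      tendsto_natCast_atTop_atTop)).const_mul_atTop (by norm_num))
  have herr : Tendsto (fun N : ℕ => ((rough N (powCut θ N)).card : ℝ) * Real.log (loglog N) / N -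
      Real.log (loglog N) * ∏ p ∈ primesUpTo (powCut θ N), (1 - (p : ℝ)⁻¹)) atTop (𝓝 0) := by
    refine squeeze_zero_norm' ?_ h0
    filter_upwards [eventually_two_pow_le, tendsto_loglog.eventually_ge_atTop 1,
      eventually_ge_atTop 1] with N h hL hN
    refine le_trans ?_ (h _ (powCut_le hθ2 hL))
    have hN0 : (0 : ℝ) < N := Nat.cast_pos.2 hN
    have e : ∀ R P : ℝ, R * Real.log (loglog N) / N - Real.log (loglog N) * P =
        (R - N * P) * Real.log (loglog N) / N := fun R P => by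
      field_simp
    rw [e, Real.norm_eq_abs, abs_div, abs_mul, abs_of_nonneg (Real.log_nonneg hL), Nat.abs_cast]
    exact div_le_div_of_nonneg_right (mul_le_mul_of_nonneg_right (abs_card_rough_sub_le N _)
      (Real.log_nonneg hL)) hN0.le
  have h1 : Tendsto (fun N : ℕ => Real.log (loglog N) *
      ∏ p ∈ primesUpTo (powCut θ N), (1 - (p : ℝ)⁻¹)) atTop
      (𝓝 (Real.exp (-Real.eulerMascheroniConstant) / θ)) := by
    refine hm.congr fun N => ?_
    simp only [Function.comp_apply, Real.log_exp, powCut]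
    field_simp
  have := herr.add h1
  rw [zero_add] at this
  simpa using this

end FA.CyclicCount

end
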